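import Fermat.Agent.H84.ORD.NodalSpecFinal

/-!
# P-ORD, block B1, row 1158 [DVR], component `0` : formal transport by `W` (helper86)

`nmDvrZero_of_oo : NmSoftStatement M p → NmLocalWStatement M p → NmDvrOoStatement M p →
  NmDvrZeroStatement M p`.

Notation of `Fermat.Agent.H84.ORD` : `W = nmW`, `V_0 = W⁻¹ V_∞`, `red_0 = red_∞ ∘ W`.
For a place `P` of `F` let `P' = W • P` (`f(P') = (W f)(P)`).  Then

* `hasValue_smul_iff` : `HasValue (W • P) (W f) c ↔ HasValue P f c`;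
* `nmY_smul` : `P` and `P'` have the same chart (from **(LW)**);
* if the centre of `P` lies on `C_0`, the centre of `P'` lies on `C_∞`; the place `Q` of
  `F_∞ = F_0` given by `[DVR]` for the component `∞` at `P'` is the place required by `[DVR]` for
  the component `0` at `P`.

**(LW)** `NmLocalWStatement` (local `W`-stability of the charts, to be supplied: `t = 1` in the
chart `j` because `W j = j(q^p)` is integral over `A[j]`; at the cusps in the chart `j⁻¹`):
for `g ∈ B̄(y_P)` there is `t ∈ B̄(y_P)`, `t(P) ∈ Aˣ`, with `t · W g ∈ B̄(y_P)`.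
-/

set_option autoImplicit false
set_option linter.unusedSectionVars false
set_option linter.unusedVariables false
set_option linter.style.haveILetI false

noncomputable section

open AlgebraicCurve ModularCurve

namespace Fermat.Agent.H86.ORD

open Fermat.Agent.H72.FF Fermat.Agent.H18.ORD Fermat.Agent.H66 Fermat.Agent.H84.ORD

/-- **(LW)** local `W`-stability of the charts at the centres. -/
def NmLocalWStatement (M p : ℕ) [NeZero M] [NeZero p] : Prop :=
  ∀ (A : ValuationSubring Qb) (h : NmSetup M p A) (P : Place Qb (FLb (M * p))),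
    ∀ g ∈ nmChart (M * p) A (nmY A P),
      ∃ t ∈ nmChart (M * p) A (nmY A P), t ∉ nmMax A P ∧
        t * nmW M p h.cop g ∈ nmChart (M * p) A (nmY A P)

/-! ### Valuation subrings -/

section VS

variable {F : Type*} [Field F] (V : ValuationSubring F)

theorem vs_val_eq_one {a : F} (ha : a ∈ V) (ha' : a ∉ V.nonunits) : V.valuation a = 1 := by
  rw [ValuationSubring.mem_nonunits_iff] at ha'
  exact le_antisymm ((V.valuation_le_one_iff a).2 ha) (not_lt.1 ha')

theorem vs_nonunit_of_mul {a b : F} (ha : a ∈ V) (ha' : a ∉ V.nonunits)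
    (hab : a * b ∈ V.nonunits) : b ∈ V.nonunits := by
  have h1 := vs_val_eq_one V ha ha'
  rw [ValuationSubring.mem_nonunits_iff] at hab ⊢
  rwa [map_mul, h1, one_mul] at hab

theorem vs_mem_of_mul {a b : F} (ha : a ∈ V) (ha' : a ∉ V.nonunits) (hab : a * b ∈ V) :
    b ∈ V := by
  have h1 := vs_val_eq_one V ha ha'
  rw [← ValuationSubring.valuation_le_one_iff] at hab ⊢
  rwa [map_mul, h1, one_mul] at hab

theorem vs_mul_nonunit {a b : F} (ha : a ∈ V) (hb : b ∈ V.nonunits) : a * b ∈ V.nonunits := by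
  rw [← ValuationSubring.valuation_le_one_iff] at ha
  rw [ValuationSubring.mem_nonunits_iff] at hb ⊢
  rw [map_mul]
  calc V.valuation a * V.valuation b ≤ 1 * V.valuation b := by gcongr
    _ = V.valuation b := one_mul _
    _ < 1 := hb

theorem vs_not_nonunit_mul {a b : F} (ha : a ∈ V) (ha' : a ∉ V.nonunits)
    (hb : b ∉ V.nonunits) : a * b ∉ V.nonunits := by
  have h1 := vs_val_eq_one V ha ha'
  rw [ValuationSubring.mem_nonunits_iff] at hb ⊢
  rwa [map_mul, h1, one_mul]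

end VS

/-! ### The composite valuation of a place -/

section Comp

variable {N : ℕ} {A : ValuationSubring Qb} (P : Place Qb (FLb N))

theorem nmMax_of_mul (hdeg : P.deg = 1) {t x : FLb N} (ht : t ∈ nmInt A P)
    (htm : t ∉ nmMax A P) (h : t * x ∈ nmMax A P) : x ∈ nmMax A P := by
  rw [← mem_nonunits_nmComp_iff A P hdeg] at htm h ⊢
  exact vs_nonunit_of_mul _ ((mem_nmComp_iff_nmInt A P hdeg).2 ht) htm h

theorem nmInt_of_mul (hdeg : P.deg = 1) {t x : FLb N} (ht : t ∈ nmInt A P)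
    (htm : t ∉ nmMax A P) (h : t * x ∈ nmInt A P) : x ∈ nmInt A P := by
  rw [← mem_nonunits_nmComp_iff A P hdeg] at htm
  rw [← mem_nmComp_iff_nmInt A P hdeg] at ht h ⊢
  exact vs_mem_of_mul _ ht htm h

theorem nmMax_mul (hdeg : P.deg = 1) {t x : FLb N} (ht : t ∈ nmInt A P)
    (h : x ∈ nmMax A P) : t * x ∈ nmMax A P := by
  rw [← mem_nonunits_nmComp_iff A P hdeg] at h ⊢
  exact vs_mul_nonunit _ ((mem_nmComp_iff_nmInt A P hdeg).2 ht) h

theorem not_nmMax_mul (hdeg : P.deg = 1) {t x : FLb N} (ht : t ∈ nmInt A P)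
    (htm : t ∉ nmMax A P) (h : x ∉ nmMax A P) : t * x ∉ nmMax A P := by
  rw [← mem_nonunits_nmComp_iff A P hdeg] at htm h ⊢
  exact vs_not_nonunit_mul _ ((mem_nmComp_iff_nmInt A P hdeg).2 ht) htm h

end Comp

/-! ### Transport of places by an automorphism -/

section Place

variable {N : ℕ} (W : FLb N ≃ₐ[Qb] FLb N) (P : Place Qb (FLb N))

theorem hasValue_smul_iff (f : FLb N) (c : Qb) :
    HasValue (W • P) (W f) c ↔ HasValue P f c := by
  unfold HasValue
  have h1 : W f = algebraMap Qb (FLb N) c ↔ f = algebraMap Qb (FLb N) c := by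
    constructor
    · intro h
      apply W.injective
      rw [h, W.commutes]
    · intro h
      rw [h, W.commutes]
  have h2 : (W • P).ord (W f - algebraMap Qb (FLb N) c) =
      P.ord (f - algebraMap Qb (FLb N) c) := by
    have e : W f - algebraMap Qb (FLb N) c = W (f - algebraMap Qb (FLb N) c) := by
      rw [map_sub, W.commutes]
    rw [e]
    exact Place.ord_smul W P _
  rw [h1, h2]

variable (hW : ∀ z, W (W z) = z)
include hW

theorem hasValue_smul_iff' (g : FLb N) (c : Qb) :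
    HasValue (W • P) g c ↔ HasValue P (W g) c := by
  rw [← hasValue_smul_iff W P (W g) c, hW]

theorem mem_nmMax_smul_iff (A : ValuationSubring Qb) (g : FLb N) :
    g ∈ nmMax A (W • P) ↔ W g ∈ nmMax A P := by
  constructor
  · rintro ⟨c, hc, h⟩
    exact ⟨c, hc, (hasValue_smul_iff' W P hW g c).1 h⟩
  · rintro ⟨c, hc, h⟩
    exact ⟨c, hc, (hasValue_smul_iff' W P hW g c).2 h⟩

theorem mem_nmInt_smul_iff (A : ValuationSubring Qb) (g : FLb N) :
    g ∈ nmInt A (W • P) ↔ W g ∈ nmInt A P := by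
  constructor
  · rintro ⟨c, hc, h⟩
    exact ⟨c, hc, (hasValue_smul_iff' W P hW g c).1 h⟩
  · rintro ⟨c, hc, h⟩
    exact ⟨c, hc, (hasValue_smul_iff' W P hW g c).2 h⟩

end Place

/-! ### The transport -/

section Main

variable {M p : ℕ} [NeZero M] [NeZero p] {A : ValuationSubring Qb}

theorem nmW_invol (hcop : Nat.Coprime M p) (z : FLb (M * p)) :
    nmW M p hcop (nmW M p hcop z) = z :=
  (nmW_spec M p hcop).2.2.2 z

/-- `red_0 (W f) = red_∞ f`. -/
theorem nmRed0_W (hcop : Nat.Coprime M p) (f : FLb (M * p)) (hf : f ∈ gaussOBar (M * p) A)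
    (h0 : nmW M p hcop f ∈ nmV0 M p hcop A) :
    nmRed0 M p hcop A ⟨nmW M p hcop f, h0⟩ = nmRedOo (M * p) A ⟨f, hf⟩ := by
  rw [nmRed0_apply]
  congr 1
  exact Subtype.ext (nmW_invol hcop f)

theorem nmW_mem_nmV0 (hcop : Nat.Coprime M p) {f : FLb (M * p)}
    (hf : f ∈ gaussOBar (M * p) A) : nmW M p hcop f ∈ nmV0 M p hcop A := by
  rw [mem_nmV0_iff, nmW_invol]
  exact hf

/-- `P` and `W • P` have the same chart. -/
theorem nmY_smul (H : NmBase M p A) (hLW : NmLocalWStatement M p)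
    (P : Place Qb (FLb (M * p))) :
    nmY A (nmW M p H.setup.cop • P) = nmY A P := by
  classical
  have hW := nmW_invol (M := M) (p := p) H.setup.cop
  have key : ∀ P0 : Place Qb (FLb (M * p)), nmJ (M * p) ∈ nmInt A P0 →
      nmW M p H.setup.cop (nmJ (M * p)) ∈ nmInt A P0 := by
    intro P0 h0
    have hy : nmY A P0 = nmJ (M * p) := by
      unfold nmY
      rw [if_pos h0]
    obtain ⟨t, ht, htm, htW⟩ := hLW A H.setup P0 (nmJ (M * p))
      (by rw [hy]; exact self_mem_nmChart A _)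
    exact nmInt_of_mul P0 (H.deg P0) (nmChart_value P0 (H.deg P0) ht) htm
      (nmChart_value P0 (H.deg P0) htW)
  by_cases h : nmJ (M * p) ∈ nmInt A P
  · have h' : nmJ (M * p) ∈ nmInt A (nmW M p H.setup.cop • P) :=
      (mem_nmInt_smul_iff _ P hW A _).2 (key P h)
    unfold nmY
    rw [if_pos h, if_pos h']
  · have h' : nmJ (M * p) ∉ nmInt A (nmW M p H.setup.cop • P) := by
      intro h1
      have h2 := key _ h1
      rw [mem_nmInt_smul_iff _ P hW, hW] at h2
      exact h h2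
    unfold nmY
    rw [if_neg h, if_neg h']

/-- **[DVR], component `0`, from component `∞`** by transport along `W`. -/
theorem nmDvrZero_of_oo (hS : NmSoftStatement M p) (hLW : NmLocalWStatement M p)
    (hD : NmDvrOoStatement M p) : NmDvrZeroStatement M p := by
  intro A h P hz
  have H : NmBase M p A := nmBase_of_soft hS h
  have hW := nmW_invol (M := M) (p := p) h.cop
  have hY : nmY A (nmW M p h.cop • P) = nmY A P := nmY_smul H hLW P
  obtain ⟨P', hP'⟩ : ∃ P' : Place Qb (FLb (M * p)), P' = nmW M p h.cop • P := ⟨_, rfl⟩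
  rw [← hP'] at hY
  have hmax : ∀ g, g ∈ nmMax A P' ↔ nmW M p h.cop g ∈ nmMax A P := fun g => by
    rw [hP']
    exact mem_nmMax_smul_iff _ P hW A g
  -- the centre of `P'` lies on `C_∞`
  have hoo : NmIdealOo M p A P' := by
    intro f hf hfV hred
    rw [hY] at hf
    obtain ⟨t, ht, htm, htW⟩ := hLW A h P f hf
    have hWf0 : nmW M p h.cop f ∈ nmV0 M p h.cop A := nmW_mem_nmV0 h.cop hfV
    have ht0 : t ∈ nmV0 M p h.cop A := H.chart_le_zero P ht
    have hred0 : nmRed0 M p h.cop A ⟨t * nmW M p h.cop f, mul_mem ht0 hWf0⟩ = 0 := by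
      have e : (⟨t * nmW M p h.cop f, mul_mem ht0 hWf0⟩ : nmV0 M p h.cop A) =
          ⟨t, ht0⟩ * ⟨nmW M p h.cop f, hWf0⟩ := rfl
      rw [e, map_mul, nmRed0_W h.cop f hfV hWf0, hred, mul_zero]
    have h1 : t * nmW M p h.cop f ∈ nmMax A P := hz _ htW _ hred0
    exact (hmax f).2 (nmMax_of_mul P (H.deg P) (nmChart_value P (H.deg P) ht) htm h1)
  obtain ⟨Q, hQ, hloc⟩ := hD A h P' hoo
  refine ⟨Q, ?_, ?_⟩
  · -- `Q` lies over the centre of `P` on `C_0`
    rintro f ⟨hfc, hfm⟩ hfV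
    obtain ⟨t', ht', htm', htW'⟩ := hLW A h P' f (by rw [hY]; exact hfc)
    have hWfV : nmW M p h.cop f ∈ gaussOBar (M * p) A := hfV
    have ht'V : t' ∈ gaussOBar (M * p) A := H.chart_le_oo P' ht'
    have hWfm : nmW M p h.cop f ∈ nmMax A P' := by
      rw [hmax, hW]
      exact hfm
    have hcen : t' * nmW M p h.cop f ∈ nmCentre A P' :=
      ⟨htW', nmMax_mul P' (H.deg P') (nmChart_value P' (H.deg P') ht') hWfm⟩
    have h2 := hQ _ hcen (mul_mem ht'V hWfV)
    have h3 : nmRedOo (M * p) A ⟨t', ht'V⟩ ∈ Q.toValuationSubring := H.redOo_mem hQ ht' ht'V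
    have h4 : nmRedOo (M * p) A ⟨t', ht'V⟩ ∉ Q.toValuationSubring.nonunits := fun h5 =>
      htm' ((H.redOo_mem_nonunits_iff hQ ht' ht'V).1 h5)
    have e : (⟨t' * nmW M p h.cop f, mul_mem ht'V hWfV⟩ : gaussOBar (M * p) A) =
        ⟨t', ht'V⟩ * ⟨nmW M p h.cop f, hWfV⟩ := rfl
    rw [e, map_mul] at h2
    show nmRedOo (M * p) A ⟨nmW M p h.cop f, hWfV⟩ ∈ Q.toValuationSubring.nonunits
    exact vs_nonunit_of_mul _ h3 h4 h2
  · -- the local ring
    intro z hzQ
    obtain ⟨f', s', hf'V, hs'V, hf'c, hs'c, hs'm, hred⟩ := hloc z hzQ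
    rw [hY] at hf'c hs'c
    obtain ⟨t₁, ht₁, ht₁m, ht₁W⟩ := hLW A h P f' hf'c
    obtain ⟨t₂, ht₂, ht₂m, ht₂W⟩ := hLW A h P s' hs'c
    have hWf0 : nmW M p h.cop f' ∈ nmV0 M p h.cop A := nmW_mem_nmV0 h.cop hf'V
    have hWs0 : nmW M p h.cop s' ∈ nmV0 M p h.cop A := nmW_mem_nmV0 h.cop hs'V
    have ht₁0 : t₁ ∈ nmV0 M p h.cop A := H.chart_le_zero P ht₁
    have ht₂0 : t₂ ∈ nmV0 M p h.cop A := H.chart_le_zero P ht₂
    have hWsm : nmW M p h.cop s' ∉ nmMax A P := fun h5 => hs'm ((hmax s').2 h5)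
    refine ⟨t₂ * (t₁ * nmW M p h.cop f'), t₁ * (t₂ * nmW M p h.cop s'),
      mul_mem ht₂0 (mul_mem ht₁0 hWf0), mul_mem ht₁0 (mul_mem ht₂0 hWs0),
      mul_mem ht₂ ht₁W, mul_mem ht₁ ht₂W, ?_, ?_⟩
    · exact not_nmMax_mul P (H.deg P) (nmChart_value P (H.deg P) ht₁) ht₁m
        (not_nmMax_mul P (H.deg P) (nmChart_value P (H.deg P) ht₂) ht₂m hWsm)
    · have e1 : (⟨t₂ * (t₁ * nmW M p h.cop f'), mul_mem ht₂0 (mul_mem ht₁0 hWf0)⟩ :
          nmV0 M p h.cop A) = ⟨t₂, ht₂0⟩ * (⟨t₁, ht₁0⟩ * ⟨nmW M p h.cop f', hWf0⟩) := rfl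
      have e2 : (⟨t₁ * (t₂ * nmW M p h.cop s'), mul_mem ht₁0 (mul_mem ht₂0 hWs0)⟩ :
          nmV0 M p h.cop A) = ⟨t₁, ht₁0⟩ * (⟨t₂, ht₂0⟩ * ⟨nmW M p h.cop s', hWs0⟩) := rfl
      rw [e1, e2, map_mul, map_mul, map_mul, map_mul, nmRed0_W h.cop f' hf'V hWf0,
        nmRed0_W h.cop s' hs'V hWs0, hred]
      ring

end Main

end Fermat.Agent.H86.ORD
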