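/-
helper86, P-ORD, block B1, row 1158 [DVR] : THE `(K₁, A₀)` CUSP CORE (second route).

`modelValGen_cusp` : `Fermat.Agent.H41.ORD.ModelValGenStatement M q R jq⁻¹ True` for every prime
`q ∤ M` and every `R` divisible by `M` : on the chart `1/j` of the model of `X₀(M q)` over ANY
discrete valuation ring `A₀` (fields `K₁ ⊇ μ_R`), at every maximal ideal `𝔪 ∋ ϖ, 1/j` through
`V_∞` : for EVERY `z ∈ V_∞` there are `t, d ∈ B(1/j)`, `d ∉ 𝔪`, with `d z ≡ t` or `d ≡ t z`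
modulo `𝔪_{V_∞}`.

Route (twin of helper71's `modelCompVal_of_levelVal` in the abstract cusp frame of helper67's
`cuspRegular_aux`) : the level-`M` local ring at the cusp `𝔫 = α⁻¹ 𝔪` is a valuation ring modulo
`ϖ` (`Fermat.Agent.H67.SS.localDVR` at `g = X`), FRAC (`hFR`), and helper71's `compVal_abs`.
-/
import Fermat.Agent.H41.ORD.ValCore
import Fermat.Agent.H67.SS.CuspRegFinal

set_option autoImplicit false
set_option linter.unusedSectionVars false
set_option linter.unusedVariables false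
set_option linter.style.haveILetI false

noncomputable section

namespace Fermat.Agent.H86.ORD

open Polynomial ModularCurve AlgebraicCurve
open Fermat.Agent.H22.KL Fermat.Agent.H66 Fermat.Agent.H55.SS Fermat.Agent.H82.SS
open Fermat.Agent.H11.SS2 Fermat.Agent.H67.SS Fermat.Agent.H7.SS Fermat.Agent.H7.SS2
open Fermat.Agent.H41.SS Fermat.Agent.H71.SS Fermat.Agent.H71.ORD Fermat.Agent.H41.ORD
open Fermat.Agent.H45
open Fermat.Agent.H87.KL (evX IntX)
open Fermat.Agent.H67.KLConn (PiDvd)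

section Abs

variable {A : Type} [CommRing A] [IsDomain A] [IsDiscreteValuationRing A]
  {E' : Type} [Field E'] [Algebra A E'] [CharZero E']
  {E : Type} [Field E] [Algebra A E] [CharZero E]

/-- **The component is normal at a point over `g = 0`** (abstract, two levels, `∀ z ∈ V` form):
the lower level is normal at `g` (`hNorm'`), FRAC, and the image of the lower chart lies in the
upper chart. -/
theorem cuspVal_abs
    (hinj' : Function.Injective (algebraMap A E'))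
    (ι : E' →+* E) (hι : ∀ a : A, ι (algebraMap A E' a) = algebraMap A E a)
    {ϖ : A} (hϖ : Irreducible ϖ) {y' : E'} {y : E} (hιy : ι y' = y)
    (hy' : Transcendental A y')
    (hfd' : ∃ n : ℕ, Nonempty (Module.Basis (Fin n) (chartField A E' y') E'))
    (g : A[X]) (hgm : g.Monic) (hgirr : Irreducible (g.map (IsLocalRing.residue A)))
    (hNorm' : ∀ z ∈ gaussClosure A E' ϖ y', Fermat.Agent.H91.KLNorm.IntModPi A E' ϖ y' z →
      ∃ s : A[X], OutsideMax A ϖ g s ∧ ∃ b ∈ chartClosure A E' y',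
        PiDvdSet A E' ϖ (gaussClosure A E' ϖ y') (aeval y' s * z - b))
    (V : ValuationSubring E)
    (hBV : ∀ s : ↥(chartClosure A E y), (s : E) ∈ V)
    (hQ' : ∀ z' : E', ι z' ∈ V → z' ∈ gaussClosure A E' ϖ y')
    (hGC' : ∀ z' ∈ gaussClosure A E' ϖ y', ι z' ∈ V)
    (hϖV : algebraMap A E ϖ ∈ V.nonunits)
    (hdiv : ∀ z ∈ V.nonunits, z / algebraMap A E ϖ ∈ V)
    (hFR : ∀ z ∈ V, ∃ z' : E', ι z' ∈ V ∧ z - ι z' ∈ V.nonunits)
    (𝔪 : Ideal ↥(chartClosure A E y)) (h𝔪 : 𝔪.IsMaximal)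
    (hϖ𝔪 : algebraMap A ↥(chartClosure A E y) ϖ ∈ 𝔪)
    (hg𝔪 : ∀ s : ↥(chartClosure A E y), (s : E) = aeval y g → s ∈ 𝔪)
    (hT : Through A E y 𝔪 V)
    (z : E) (hz : z ∈ V) :
    ∃ t d : ↥(chartClosure A E y), d ∉ 𝔪 ∧
      ((d : E) * z - (t : E) ∈ V.nonunits ∨ (d : E) - (t : E) * z ∈ V.nonunits) := by
  classical
  haveI h𝔪p : 𝔪.IsPrime := h𝔪.isPrime
  have h1𝔪 : (1 : ↥(chartClosure A E y)) ∉ 𝔪 := fun h =>
    h𝔪p.ne_top ((Ideal.eq_top_iff_one _).2 h)
  -- the image of the lower chart lies in the upper chart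
  have hιB : ∀ s' : ↥(chartClosure A E' y'), ι (s' : E') ∈ chartClosure A E y := by
    intro s'
    have h := ktfl_map_mem_chartClosure ι hι s'.2
    rwa [hιy] at h
  have hιBloc : ∀ s' : ↥(chartClosure A E' y'),
      ∃ b : ↥(chartClosure A E y), b ∉ 𝔪 ∧ (b : E) * ι (s' : E') ∈ chartClosure A E y := by
    intro s'
    refine ⟨1, h1𝔪, ?_⟩
    have e : ((1 : ↥(chartClosure A E y)) : E) * ι (s' : E') = ι (s' : E') := by
      rw [OneMemClass.coe_one, one_mul]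
    rw [e]
    exact hιB s'
  haveI hp' := pullIdeal_isPrime ι y' y 𝔪 hιBloc
  have hϖ' : algebraMap A ↥(chartClosure A E' y') ϖ ∈ pullIdeal ι y' y 𝔪 hιBloc := by
    refine ⟨1, algebraMap A ↥(chartClosure A E y) ϖ, h1𝔪, hϖ𝔪, ?_⟩
    show ((1 : ↥(chartClosure A E y)) : E) * ι (algebraMap A E' ϖ) = algebraMap A E ϖ
    rw [hι, OneMemClass.coe_one, one_mul]
  have hιg : ι (aeval y' g) = aeval y g := by
    have h2 := congrArg (fun f : A[X] →+* E => f g) (ktfl_comp_evX ι hι y')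
    simp only [RingHom.comp_apply, Fermat.Agent.H87.KL.evX_apply] at h2
    rw [h2, hιy]
  have hg' : evB (A := A) y' g ∈ pullIdeal ι y' y 𝔪 hιBloc := by
    refine ⟨1, ⟨aeval y g, etale_aeval_mem_chartClosure A E y g⟩, h1𝔪, hg𝔪 _ rfl, ?_⟩
    show ((1 : ↥(chartClosure A E y)) : E) * ι (aeval y' g) = aeval y g
    rw [OneMemClass.coe_one, one_mul, hιg]
  have hmax' : (pullIdeal ι y' y 𝔪 hιBloc).IsMaximal :=
    isMaximal_of_isPrime_of_mem hϖ g hgirr _ hϖ' hg'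
  obtain ⟨U', -, -, hval⟩ :=
    localDVR hinj' hϖ hy' hfd' (hMax_of_val hinj' ι hι hϖ V hdiv hGC' hQ') g hgm hgirr hNorm'
      _ hmax' hϖ' hg'
  have h𝔫 : ∀ d : ↥(chartClosure A E' y'), d ∉ pullIdeal ι y' y 𝔪 hιBloc →
      (⟨ι (d : E'), hιB d⟩ : ↥(chartClosure A E y)) ∉ 𝔪 := by
    intro d hd hmem
    refine hd ⟨1, ⟨ι (d : E'), hιB d⟩, h1𝔪, hmem, ?_⟩
    rw [OneMemClass.coe_one, one_mul]
  have hFRAC := hFRAC_of_val ι hϖ hy' V hBV hGC' hQ' hFR
  -- FRAC for `z`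
  obtain ⟨z', hz'V, hzz'⟩ := hFR z hz
  obtain ⟨h, hh, hnd, hhz⟩ := hQ' z' hz'V
  have hhB : h ∈ chartClosure A E' y' := by
    obtain ⟨H, rfl⟩ := (Fermat.Agent.H87.KL.mem_chartRing_iff y' h).1 hh
    exact etale_aeval_mem_chartClosure A E' y' H
  have hb₂u : ι h ∉ V.nonunits := unit_of_primitive ι V hGC' h hh hnd
  have hb₂V : ι h ∈ V := hBV ⟨_, hιB ⟨h, hhB⟩⟩
  have hzm : ι h * z - ι (h * z') ∈ V.nonunits := by
    have e1 : ι h * z - ι (h * z') = ι h * (z - ι z') := by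
      rw [map_mul]; ring
    rw [e1]
    exact nu_mul_left V hb₂V hzz'
  have hVAL := compVal_abs ι hι ϖ y' y 𝔪 V hBV hϖV hT hιB hFRAC _ h𝔫 hval
    ⟨ι (h * z'), hιB ⟨h * z', hhz⟩⟩ ⟨ι h, hιB ⟨h, hhB⟩⟩
  rcases hVAL with ⟨t, d, hd, hr⟩ | ⟨t, d, hd, hr⟩
  · refine ⟨t, d, hd, Or.inl ?_⟩
    apply nu_cancel V hb₂V hb₂u
    have e : ι h * ((d : E) * z - (t : E)) =
        (d : E) * (ι h * z - ι (h * z')) + ((d : E) * ι (h * z') - (t : E) * ι h) := by ring
    rw [e]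
    exact nu_add V (nu_mul_left V (hBV d) hzm) hr
  · refine ⟨t, d, hd, Or.inr ?_⟩
    apply nu_cancel V hb₂V hb₂u
    have e : ι h * ((d : E) - (t : E) * z) =
        ((d : E) * ι h - (t : E) * ι (h * z')) - (t : E) * (ι h * z - ι (h * z')) := by ring
    rw [e]
    exact nu_sub V hr (nu_mul_left V (hBV t) hzm)

end Abs

/-- **THE CUSP CORE of [DVR]** : the component `C_∞` of the model of `X₀(M q)` is normal at the
cusps (chart `1/j`), over ANY discrete valuation ring `A₀` of a number field `K₁ ⊇ μ_R`,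
`M ∣ R`. -/
theorem modelValGen_cusp (M q : ℕ) [NeZero M] [NeZero q] (hq : q.Prime) (hqM : ¬ q ∣ M)
    (R : ℕ) (hMR : M ∣ R) (hR : 0 < R) :
    ModelValGenStatement M q R (jq)⁻¹ True := by
  intro K₁ _ _ _ A₀ _ _ _ _ _ _ _ hqA hζ ϖ hϖ x hx W hW 𝔪 h𝔪 hϖ𝔪 hT hc z hz
  -- the algebra structure of level `M`
  letI algM : Algebra A₀ (ModelField K₁ M) :=
    ((algebraMap K₁ (ModelField K₁ M)).comp (algebraMap A₀ K₁)).toAlgebra
  haveI towM : IsScalarTower A₀ K₁ (ModelField K₁ M) :=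
    IsScalarTower.of_algebraMap_eq (fun _ => rfl)
  haveI cz : CharZero K₁ := charZero_of_injective_algebraMap (algebraMap ℚ K₁).injective
  haveI czM : CharZero (ModelField K₁ M) :=
    charZero_of_injective_algebraMap (algebraMap K₁ (ModelField K₁ M)).injective
  haveI czMq : CharZero (ModelField K₁ (M * q)) :=
    charZero_of_injective_algebraMap (algebraMap K₁ (ModelField K₁ (M * q))).injective
  have hφ : Function.Injective (algebraMap A₀ K₁) := IsFractionRing.injective A₀ K₁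
  have hinj' : Function.Injective (algebraMap A₀ (ModelField K₁ M)) := by
    rw [IsScalarTower.algebraMap_eq A₀ K₁ (ModelField K₁ M)]
    exact (algebraMap K₁ (ModelField K₁ M)).injective.comp hφ
  -- a primitive `M`-th root of unity
  have hζM : ∃ ζ : K₁, IsPrimitiveRoot ζ M := by
    obtain ⟨ζ, hζ⟩ := hζ
    obtain ⟨a, ha⟩ := hMR
    exact ⟨ζ ^ a, hζ.pow hR (by rw [ha, mul_comm])⟩
  -- the coordinate of level `M`
  have hjq : jq ∈ modularFunctionFieldFull M := by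
    have h := jqd_mem_full M (one_dvd M)
    rwa [qExpand_one_apply] at h
  set x' : ModelField K₁ M := ⟨coeffEmb K₁ jq, coeffEmb_mem_laurentBaseChange K₁ hjq⟩ with hx'def
  have hx' : (x' : LaurentSeries K₁) = coeffEmb K₁ jq := rfl
  have hxα : x = (heckeAlphaBar K₁ M q x')⁻¹ := by
    apply Subtype.ext
    rw [hx]
    show coeffEmb K₁ (jq)⁻¹ = ((heckeAlphaBar K₁ M q x' : ModelField K₁ (M * q)) :
      LaurentSeries K₁)⁻¹
    rw [coe_heckeAlphaBar, hx']
    exact map_inv₀ _ _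
  subst hxα
  -- the leaves
  obtain ⟨hy', hy, hfd', hfd, hGB', hBr', hInt⟩ :=
    Fermat.Agent.H42.SS.modelCuspChart M q hq hqM K₁ A₀ hqA hζM ϖ hϖ x' hx'
  obtain ⟨hC, hCV, hQ', hGC', hϖV, hdiv, hFrob, hFR⟩ :=
    modelCuspGaussV M q hq hqM K₁ A₀ hqA ϖ hϖ x' hx' W hW
  have hα : ∀ a : A₀, (heckeAlphaBar K₁ M q : ModelField K₁ M →+* ModelField K₁ (M * q))
      (algebraMap A₀ (ModelField K₁ M) a) = algebraMap A₀ (ModelField K₁ (M * q)) a := by
    intro a
    rw [IsScalarTower.algebraMap_apply A₀ K₁ (ModelField K₁ M),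
      IsScalarTower.algebraMap_apply A₀ K₁ (ModelField K₁ (M * q))]
    exact (heckeAlphaBar K₁ M q).commutes _
  have hBV : ∀ s : ↥(chartClosure A₀ (ModelField K₁ (M * q)) (heckeAlphaBar K₁ M q x')⁻¹),
      (s : ModelField K₁ (M * q)) ∈ gaussValM K₁ A₀ (M * q) := fun s =>
    (hCV s (Fermat.Agent.H89.klg_chartClosure_le_gaussClosure hϖ hy s.2)).1
  have hgirr : Irreducible ((X : A₀[X]).map (IsLocalRing.residue A₀)) := by
    rw [Polynomial.map_X]
    exact Polynomial.irreducible_X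
  have hαy : (heckeAlphaBar K₁ M q : ModelField K₁ M →+* ModelField K₁ (M * q)) x'⁻¹ =
      (heckeAlphaBar K₁ M q x')⁻¹ := map_inv₀ _ _
  exact cuspVal_abs hinj'
    (heckeAlphaBar K₁ M q : ModelField K₁ M →+* ModelField K₁ (M * q)) hα hϖ hαy hy' hfd'
    X monic_X hgirr
    (Fermat.Agent.H70.KL.normalityAtFull A₀ (ModelField K₁ M) hinj' ϖ hϖ x'⁻¹ hy' hGB' X monic_X
      hgirr hBr')
    (gaussValM K₁ A₀ (M * q)) hBV hQ' hGC' hϖV hdiv hFR 𝔪 h𝔪 hϖ𝔪
    (fun s hs => by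
      have e : s = ⟨(heckeAlphaBar K₁ M q x')⁻¹, vc_self_mem _⟩ :=
        Subtype.ext (by rw [hs, aeval_X])
      rw [e]
      exact hc trivial)
    hT z hz

/-- **THE CUSP CORE of [DVR]** at the auxiliary root `R = ktAuxRoot M q` (the exact input of
`Fermat.Agent.H41.ORD.nmValOo_of_cusp`). -/
theorem modelValGen_cusp_aux (M q : ℕ) [NeZero M] [NeZero q] (hq : q.Prime) (hqM : ¬ q ∣ M) :
    ModelValGenStatement M q (ktAuxRoot M q) (jq)⁻¹ True := by
  refine modelValGen_cusp M q hq hqM _ ?_ (ktAuxRoot_pos M q)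
  unfold ktAuxRoot
  split_ifs
  · exact Dvd.intro_left 3 rfl
  · exact Dvd.intro_left 2 rfl

end Fermat.Agent.H86.ORD

end
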