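/-
helper86, P-ORD, block B1, row 1158 [DVR] : **[VAL], component `∞`, CLOSED**.

`nmValOo : NmSoftStatement M p → Fermat.Agent.H41.ORD.NmValOoStatement M p` : at every centre on
`C_∞` (charts `j` and `1/j`), `red_∞ (B̄_𝔪)` is a valuation ring of `F_∞` :
helper41's descent `nmValOo_of_cusp` + the cusp core `Fermat.Agent.H86.ORD.modelValGen_cusp_aux`.
-/
import Fermat.Agent.H86.ORD.CuspCore
import Fermat.Agent.H41.ORD.NmValChart

set_option autoImplicit false
set_option linter.unusedSectionVars false
set_option linter.unusedVariables false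

noncomputable section

namespace Fermat.Agent.H86.ORD

open ModularCurve AlgebraicCurve
open Fermat.Agent.H84.ORD Fermat.Agent.H72.FF Fermat.Agent.H41.ORD

/-- **[VAL], component `∞`** : `red_∞ (B̄_𝔪)` is a valuation ring of `F_∞` at every centre on
`C_∞`; only `NmSoftStatement` (landed: `Fermat.Agent.H20.ORD.nmSoft`) is assumed. -/
theorem nmValOo {M p : ℕ} [NeZero M] [NeZero p] (hS : NmSoftStatement M p) :
    NmValOoStatement M p := by
  intro A h P hI z
  have hp : p.Prime := h.prime
  have hpM : ¬ p ∣ M := (Nat.Prime.coprime_iff_not_dvd hp).1 h.cop.symm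
  exact nmValOo_of_cusp (modelValGen_cusp_aux M p hp hpM) hS A h P hI z

end Fermat.Agent.H86.ORD

end
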