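import Mathlib
import Fermat.Prelude.Def_ModularCurve_X0ModL
import Fermat.Agent.H42.KroneckerFormal

/-!
# P-ORD, block B1-1b (helper86): the function field of level `p M` in characteristic `p`

Over a field `k` of characteristic `p`, `j(q^(p d)) = j(q^d)^p`, hence
`modularFunctionFieldFullC k (p * M) = modularFunctionFieldFullC k M` as subfields of `k((q))`.

* `qExpand_intSeries_char` : `x(q^p) = x^p` for `x = coeffMap (ZMod p → k) y`;
* `qExpand_jqModC_char` : `j(q^(p d)) = j(q^d)^p`;
* `fullC_char_mul_left` : `F_k(p M) = F_k(M)`; `fullC_char_mul_right` : `F_k(M p) = F_k(M)`.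
-/

set_option autoImplicit false

noncomputable section

namespace Fermat.Agent.H86.ORD

open ModularCurve

section Frob

variable (k : Type*) [Field k] (p : ℕ) [Fact p.Prime] [CharP k p]

/-- Frobenius on series with coefficients in the prime field: `x(q^p) = x^p`. -/
theorem qExpand_intSeries_char (y : LaurentSeries (ZMod p)) :
    qExpand k p (coeffMap (ZMod.castHom (dvd_refl p) k) y) =
      (coeffMap (ZMod.castHom (dvd_refl p) k) y) ^ p := by
  rw [← ModularCurve.coeffMap_qExpand, ← map_pow, Fermat.Agent.H42.laurent_pow_eq_qExpand]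

/-- `j(q^(p d)) = j(q^d)^p` in characteristic `p`. -/
theorem qExpand_jqModC_char (d : ℕ) [NeZero d] :
    qExpand k (p * d) (jqModC k) = (qExpand k d (jqModC k)) ^ p := by
  rw [← qExpand_qExpand, ← coeffMap_jqModC (ZMod.castHom (dvd_refl p) k),
    ← ModularCurve.coeffMap_qExpand, qExpand_intSeries_char]

end Frob

section Field

variable (k : Type*) [Field k] (p : ℕ) [Fact p.Prime] [CharP k p] (M : ℕ) [NeZero M]

/-- **B1-1b**: in characteristic `p`, the function field of level `p M` equals that of level
`M` (as subfields of `k((q))`). -/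
theorem fullC_char_mul_left :
    modularFunctionFieldFullC k (p * M) = modularFunctionFieldFullC k M := by
  have hp : p.Prime := Fact.out
  apply le_antisymm
  · rw [modularFunctionFieldFullC, IntermediateField.adjoin_le_iff]
    rintro x ⟨d, hne, hdvd, rfl⟩
    haveI := hne
    by_cases hpd : p ∣ d
    · obtain ⟨d', rfl⟩ := hpd
      have hd' : d' ∣ M := Nat.dvd_of_mul_dvd_mul_left hp.pos hdvd
      haveI : NeZero d' := ⟨fun h => by
        apply hne.out
        rw [h, mul_zero]⟩
      rw [qExpand_jqModC_char]
      exact pow_mem (jqModCd_mem_full k M hd') p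
    · have hcop : Nat.Coprime d p := ((Nat.Prime.coprime_iff_not_dvd hp).2 hpd).symm
      exact jqModCd_mem_full k M (hcop.dvd_of_dvd_mul_left hdvd)
  · exact full_degeneracyC_le k (Dvd.intro_left p rfl)

/-- **B1-1b**, level written `M * p`. -/
theorem fullC_char_mul_right :
    modularFunctionFieldFullC k (M * p) = modularFunctionFieldFullC k M := by
  have h := fullC_char_mul_left k p M
  rwa [Nat.mul_comm p M] at h

end Field

end Fermat.Agent.H86.ORD
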