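/-
helper86, P-ORD, block B1, row 1158 **[DVR] CLOSED** (both components, unconditional).

* `nmDvrOo M p : NmDvrOoStatement M p`  =  helper82's `nmDvrOo_of_val` (VAL + Riemann's
  hypotheses ⟹ place) on `nmValOo` (helper41's descent + the cusp core) and helper20's `nmSoft`;
* `nmDvrZero M p : NmDvrZeroStatement M p`  =  the `W`-transport (`nmDvrZero_of_oo'`,
  helper86 + helper95).
-/
import Fermat.Agent.H86.ORD.NmValOoClosed
import Fermat.Agent.H82.ORD.NmDvrAbs
import Fermat.Agent.H95.ORD.LocalW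
import Fermat.Agent.H20.ORD.NmSoft

set_option autoImplicit false
set_option linter.unusedSectionVars false
set_option linter.unusedVariables false

noncomputable section

namespace Fermat.Agent.H86.ORD

open ModularCurve AlgebraicCurve
open Fermat.Agent.H84.ORD Fermat.Agent.H72.FF Fermat.Agent.H41.ORD

/-- **[DVR], component `∞`, UNCONDITIONAL.** -/
theorem nmDvrOo (M p : ℕ) [NeZero M] [NeZero p] : NmDvrOoStatement M p :=
  Fermat.Agent.H82.ORD.nmDvrOo_of_val (Fermat.Agent.H20.ORD.nmSoft M p)
    (nmValOo (Fermat.Agent.H20.ORD.nmSoft M p))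

/-- **[DVR], component `0`, UNCONDITIONAL.** -/
theorem nmDvrZero (M p : ℕ) [NeZero M] [NeZero p] : NmDvrZeroStatement M p :=
  Fermat.Agent.H95.ORD.nmDvrZero_of_oo' M p (Fermat.Agent.H20.ORD.nmSoft M p) (nmDvrOo M p)

end Fermat.Agent.H86.ORD

end
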